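import Mathlib

/-!
# Positivity lemma for the gcd-square system (S28 long shot, piece (S))

`gcd_sq_system_injective`: if `∑ δ ∣ N, z δ * gcd(d,δ)^2 = 0` for all `d ∣ N` then `z = 0` on
divisors of `N`.  `single_block`: the combinatorial consequence used in the unit argument.
-/

set_option autoImplicit false

open ArithmeticFunction Finset
open scoped ArithmeticFunction.Moebius ArithmeticFunction.zeta

namespace Fermat.Agent.S28.H627

/-- Jordan's totient `J₂ = μ * n²` as an integer-valued arithmetic function. -/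
noncomputable def jordanTwo : ArithmeticFunction ℤ :=
  (μ : ArithmeticFunction ℤ) * ((pow 2 : ArithmeticFunction ℕ) : ArithmeticFunction ℤ)

theorem jordanTwo_mul_zeta :
    jordanTwo * (ζ : ArithmeticFunction ℤ) = ((pow 2 : ArithmeticFunction ℕ) : ArithmeticFunction ℤ) := by
  unfold jordanTwo
  rw [mul_assoc, mul_comm _ (ζ : ArithmeticFunction ℤ), ← mul_assoc, moebius_mul_coe_zeta, one_mul]

theorem sum_divisors_jordanTwo {n : ℕ} (hn : n ≠ 0) :
    ∑ e ∈ n.divisors, jordanTwo e = (n : ℤ) ^ 2 := by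
  have h := congrArg (fun f : ArithmeticFunction ℤ => f n) jordanTwo_mul_zeta
  simp only [coe_mul_zeta_apply] at h
  rw [h, natCoe_apply, pow_apply]
  simp [hn]

theorem isMultiplicative_jordanTwo : IsMultiplicative jordanTwo :=
  isMultiplicative_moebius.mul (isMultiplicative_pow (k := 2)).natCast

theorem jordanTwo_prime_pow {p k : ℕ} (hp : p.Prime) (hk : k ≠ 0) :
    jordanTwo (p ^ k) = (p : ℤ) ^ (2 * k) - (p : ℤ) ^ (2 * (k - 1)) := by
  obtain ⟨m, rfl⟩ := Nat.exists_eq_succ_of_ne_zero hk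
  have h1 := sum_divisors_jordanTwo (n := p ^ (m + 1)) (pow_ne_zero _ hp.ne_zero)
  have h2 := sum_divisors_jordanTwo (n := p ^ m) (pow_ne_zero _ hp.ne_zero)
  rw [Nat.divisors_prime_pow hp, Finset.sum_map] at h1 h2
  simp only [Function.Embedding.coeFn_mk] at h1 h2
  rw [Finset.sum_range_succ, h2] at h1
  have : jordanTwo (p ^ (m + 1)) = ((p ^ (m + 1) : ℕ) : ℤ) ^ 2 - ((p ^ m : ℕ) : ℤ) ^ 2 := by
    linarith
  rw [this]
  push_cast
  rw [Nat.succ_eq_add_one]
  ring

theorem jordanTwo_prime_pow_pos {p k : ℕ} (hp : p.Prime) (hk : k ≠ 0) :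
    0 < jordanTwo (p ^ k) := by
  rw [jordanTwo_prime_pow hp hk, sub_pos]
  have hp1 : (1 : ℤ) < p := by exact_mod_cast hp.one_lt
  exact pow_lt_pow_right₀ hp1 (by omega)

theorem jordanTwo_pos {n : ℕ} (hn : n ≠ 0) : 0 < jordanTwo n := by
  rw [isMultiplicative_jordanTwo.multiplicative_factorization jordanTwo hn]
  apply Finset.prod_pos
  intro p hp
  have hpp : p.Prime := Nat.prime_of_mem_primeFactors (by simpa using hp)
  have hk : n.factorization p ≠ 0 := by
    rwa [Finsupp.mem_support_iff] at hp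
  exact jordanTwo_prime_pow_pos hpp hk


/-- `gcd(d,δ)^2 = ∑_{e ∣ d, e ∣ δ} J₂(e)`. -/
theorem gcd_sq_eq_sum {d δ : ℕ} (hd : d ≠ 0) :
    ((Nat.gcd d δ : ℤ)) ^ 2 = ∑ e ∈ d.divisors, if e ∣ δ then jordanTwo e else 0 := by
  have hg : Nat.gcd d δ ≠ 0 := Nat.gcd_ne_zero_left hd
  rw [← sum_divisors_jordanTwo hg, ← Finset.sum_filter]
  apply Finset.sum_congr _ (fun _ _ => rfl)
  ext e
  simp only [Nat.mem_divisors, Finset.mem_filter, Nat.dvd_gcd_iff]
  constructor
  · rintro ⟨⟨h1, h2⟩, -⟩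
    exact ⟨⟨h1, hd⟩, h2⟩
  · rintro ⟨⟨h1, -⟩, h2⟩
    exact ⟨⟨h1, h2⟩, hg⟩

/-- **Positivity lemma (S1).** The matrix `(gcd(d,δ)^2)_{d,δ ∣ N}` is nonsingular. -/
theorem gcd_sq_system_injective (N : ℕ) (z : ℕ → ℚ)
    (h : ∀ d ∈ N.divisors, ∑ δ ∈ N.divisors, z δ * ((Nat.gcd d δ : ℚ)) ^ 2 = 0) :
    ∀ δ ∈ N.divisors, z δ = 0 := by
  classical
  -- `Z e = ∑_{δ ∣ N, e ∣ δ} z δ`
  set Z : ℕ → ℚ := fun e => ∑ δ ∈ N.divisors, if e ∣ δ then z δ else 0 with hZ
  -- Step A: `∑_{e ∣ d} J e * Z e = 0` for `d ∣ N`.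
  have hA : ∀ d ∈ N.divisors, ∑ e ∈ d.divisors, (jordanTwo e : ℚ) * Z e = 0 := by
    intro d hd
    have hd0 : d ≠ 0 := (Nat.pos_of_mem_divisors hd).ne'
    rw [← h d hd]
    simp only [hZ, Finset.mul_sum]
    rw [Finset.sum_comm]
    apply Finset.sum_congr rfl
    intro δ _
    have := gcd_sq_eq_sum (d := d) (δ := δ) hd0
    have hq : ((Nat.gcd d δ : ℚ)) ^ 2 = ∑ e ∈ d.divisors, if e ∣ δ then (jordanTwo e : ℚ) else 0 := by
      have h' := congrArg (fun x : ℤ => (x : ℚ)) this
      simp only [Int.cast_pow, Int.cast_natCast, Int.cast_sum] at h'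
      rw [h']
      apply Finset.sum_congr rfl
      intro e _
      split_ifs <;> simp
    rw [hq, Finset.mul_sum]
    apply Finset.sum_congr rfl
    intro e _
    split_ifs <;> ring
  -- Step B: `Z d = 0` for `d ∣ N`, by strong induction.
  have hB : ∀ d, d ∈ N.divisors → Z d = 0 := by
    intro d
    induction d using Nat.strong_induction_on with
    | _ d ih =>
      intro hd
      have hd0 : d ≠ 0 := (Nat.pos_of_mem_divisors hd).ne'
      have hsum := hA d hd
      rw [← Finset.sum_erase_add _ _ (Nat.mem_divisors_self d hd0)] at hsum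
      have hzero : ∑ e ∈ d.divisors.erase d, (jordanTwo e : ℚ) * Z e = 0 := by
        apply Finset.sum_eq_zero
        intro e he
        rw [Finset.mem_erase, Nat.mem_divisors] at he
        have hlt : e < d := lt_of_le_of_ne (Nat.le_of_dvd (Nat.pos_of_ne_zero hd0) he.2.1) he.1
        have heN : e ∈ N.divisors :=
          Nat.mem_divisors.mpr ⟨he.2.1.trans (Nat.dvd_of_mem_divisors hd), (Nat.mem_divisors.mp hd).2⟩
        rw [ih e hlt heN, mul_zero]
      rw [hzero, zero_add] at hsum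
      have hJ : (jordanTwo d : ℚ) ≠ 0 := by
        have := jordanTwo_pos hd0
        exact_mod_cast this.ne'
      exact (mul_eq_zero.mp hsum).resolve_left hJ
  -- Step C: downward induction.
  have hC : ∀ m δ, δ ∈ N.divisors → N - δ = m → z δ = 0 := by
    intro m
    induction m using Nat.strong_induction_on with
    | _ m ih =>
      intro δ hδ hm
      have hZδ := hB δ hδ
      simp only [hZ] at hZδ
      rw [← Finset.sum_erase_add _ _ hδ] at hZδ
      have hzero : ∑ x ∈ N.divisors.erase δ, (if δ ∣ x then z x else 0) = 0 := by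
        apply Finset.sum_eq_zero
        intro x hx
        rw [Finset.mem_erase] at hx
        split_ifs with hdx
        · have hx0 : 0 < x := Nat.pos_of_mem_divisors hx.2
          have hle : δ ≤ x := Nat.le_of_dvd hx0 hdx
          have hlt : δ < x := lt_of_le_of_ne hle (Ne.symm hx.1)
          have hxN : x ≤ N := Nat.le_of_dvd (Nat.pos_of_ne_zero (Nat.mem_divisors.mp hx.2).2)
            (Nat.dvd_of_mem_divisors hx.2)
          exact ih (N - x) (by omega) x hx.2 rfl
        · rfl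
      rw [hzero, zero_add, if_pos dvd_rfl] at hZδ
      exact hZδ
  intro δ hδ
  exact hC (N - δ) δ hδ rfl

/-- Fibrewise rewriting of the gcd-square sum. -/
theorem sum_gcd_sq_fiberwise (N : ℕ) {Θ : Type*} [DecidableEq Θ] (c : Θ → ℕ)
    (hc : ∀ θ, c θ ∈ N.divisors) (B : Finset Θ) (d : ℕ) :
    ∑ θ ∈ B, ((Nat.gcd d (c θ) : ℚ)) ^ 2
      = ∑ δ ∈ N.divisors, ((B.filter fun θ => c θ = δ).card : ℚ) * ((Nat.gcd d δ : ℚ)) ^ 2 := by
  rw [← Finset.sum_fiberwise_of_maps_to (g := c) (t := N.divisors) (fun θ _ => hc θ)]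
  apply Finset.sum_congr rfl
  intro δ _
  rw [Finset.sum_congr rfl (g := fun _ => ((Nat.gcd d δ : ℚ)) ^ 2)]
  · rw [Finset.sum_const, nsmul_eq_mul]
  · intro θ hθ
    rw [(Finset.mem_filter.mp hθ).2]

/-- **Single block lemma (S2).** -/
theorem single_block (N : ℕ) (hN : N ≠ 0) {Θ : Type*} [Fintype Θ] [DecidableEq Θ] (c : Θ → ℕ)
    (hc : ∀ θ, c θ ∣ N) (θ₀ : Θ) (h₀ : ∀ θ, c θ = N → θ = θ₀) (hθ₀ : c θ₀ = N)
    (B : Finset Θ) (hB₀ : θ₀ ∈ B)
    (hB : ∀ d ∈ N.divisors, ∑ θ ∈ B, ((Nat.gcd d (c θ) : ℚ)) ^ 2 = d * B.card)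
    (hΘ : ∀ d ∈ N.divisors, ∑ θ : Θ, ((Nat.gcd d (c θ) : ℚ)) ^ 2 = d * Fintype.card Θ) :
    B = Finset.univ := by
  classical
  have hc' : ∀ θ, c θ ∈ N.divisors := fun θ => Nat.mem_divisors.mpr ⟨hc θ, hN⟩
  set nB : ℕ → ℚ := fun δ => ((B.filter fun θ => c θ = δ).card : ℚ) with hnB
  set nT : ℕ → ℚ := fun δ => (((Finset.univ : Finset Θ).filter fun θ => c θ = δ).card : ℚ)
    with hnT
  have key := gcd_sq_system_injective N
    (fun δ => (Fintype.card Θ : ℚ) * nB δ - (B.card : ℚ) * nT δ) (by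
      intro d hd
      have e1 := hB d hd
      have e2 := hΘ d hd
      rw [sum_gcd_sq_fiberwise N c hc' B d] at e1
      rw [sum_gcd_sq_fiberwise N c hc' Finset.univ d] at e2
      simp only [sub_mul, Finset.sum_sub_distrib, mul_assoc, ← Finset.mul_sum]
      rw [e1, e2]
      ring)
  have hNN := key N (Nat.mem_divisors_self N hN)
  have h1 : nB N = 1 := by
    simp only [hnB]
    have : B.filter (fun θ => c θ = N) = {θ₀} := by
      ext θ
      simp only [Finset.mem_filter, Finset.mem_singleton]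
      constructor
      · rintro ⟨-, h⟩
        exact h₀ θ h
      · rintro rfl
        exact ⟨hB₀, hθ₀⟩
    rw [this]
    simp
  have h2 : nT N = 1 := by
    simp only [hnT]
    have : (Finset.univ : Finset Θ).filter (fun θ => c θ = N) = {θ₀} := by
      ext θ
      simp only [Finset.mem_filter, Finset.mem_univ, true_and, Finset.mem_singleton]
      constructor
      · exact h₀ θ
      · rintro rfl
        exact hθ₀
    rw [this]
    simp
  simp only [h1, h2, mul_one, sub_eq_zero] at hNN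
  have hcard : B.card = Fintype.card Θ := by exact_mod_cast hNN.symm
  exact Finset.eq_univ_of_card B hcard

end Fermat.Agent.S28.H627
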